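import Fermat.Agent.DeligneSerre.Galois.Classes
import Fermat.Agent.FlatModel.Jacobian

/-!
# Torsion classes inside the divisor classes of the field of `X₁(M)`

The class of a function with divisor divisible by `n` goes to the divided divisor, equivariantly
for the Galois action on coefficients.
-/

set_option autoImplicit false
set_option linter.unusedSectionVars false
set_option linter.style.haveILetI false
set_option maxHeartbeats 800000
set_option synthInstance.maxHeartbeats 400000

noncomputable section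

open AlgebraicCurve

namespace FLTAgent.Lowering.P3

open FLTAgent.Curves FLTAgent.DeligneSerre FLTAgent.Specialization
open FLTAgent.PeriodHecke (Hpar)

local notation "LL" => AlgebraicClosure ℚ
local notation "GG" => (AlgebraicClosure ℚ ≃ₐ[ℚ] AlgebraicClosure ℚ)

variable {M : ℕ} [NeZero M] {κ : LL →+* ℂ} (D : Field1 M κ)

/-- The Galois action on the field, as semilinear automorphisms. -/
def galRho : GG →* SemilinearAut LL D.F where
  toFun := galAut D
  map_one' := Subtype.ext (Prod.ext (RingEquiv.ext fun x => galF_one D x) rfl)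
  map_mul' σ τ := Subtype.ext (Prod.ext (RingEquiv.ext fun x => galF_mul D σ τ x) rfl)

theorem galRho_smul (σ : GG) (x : D.F) : galRho D σ • x = galF D σ x := rfl

theorem isArith_galRho : FlatModel.IsArith (galRho D) := fun σ a =>
  Subtype.ext (ModularCurve.coeffMap_algebraMap (σ : LL →+* LL) a)

variable [IsFunctionField LL D.F] {n : ℕ} [NeZero n]

/-- The divided divisor. -/
def divDiv (n : ℕ) (x : D.F) : Divisor LL D.F :=
  (divOf LL x).mapRange (fun z => z / (n : ℤ)) (by simp)

variable {D}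

theorem nsmul_divDiv {x : D.F} (h : DivN D n x) : n • divDiv D n x = divOf LL x := by
  refine Finsupp.ext fun v => ?_
  rw [Finsupp.smul_apply, divDiv, Finsupp.mapRange_apply, divOf_apply, nsmul_eq_mul]
  exact Int.mul_ediv_cancel' (h.2 v)

theorem divDiv_unique {x : D.F} (h : DivN D n x) {E : Divisor LL D.F}
    (hE : n • E = divOf LL x) : divDiv D n x = E := by
  refine Finsupp.ext fun v => ?_
  have h1 := congrArg (fun F : Divisor LL D.F => F v) ((nsmul_divDiv h).trans hE.symm)
  simp only [Finsupp.smul_apply, nsmul_eq_mul] at h1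
  exact mul_left_cancel₀ (Nat.cast_ne_zero.2 (NeZero.ne n)) h1

theorem divDiv_mem {x : D.F} (h : DivN D n x) :
    divDiv D n x ∈ Divisor.degZero (K := LL) (F := D.F) := by
  rw [Divisor.mem_degZero]
  have h1 := congrArg Divisor.degree (nsmul_divDiv h)
  rw [map_nsmul, degree_divOf, smul_eq_zero] at h1
  exact h1.resolve_left (NeZero.ne n)

theorem divOf_mul' {x y : D.F} (hx : x ≠ 0) (hy : y ≠ 0) :
    divOf LL (x * y) = divOf LL x + divOf LL y := Finsupp.ext fun v => by
  rw [Finsupp.add_apply, divOf_apply, divOf_apply, divOf_apply, v.ord_mul hx hy]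

theorem divOf_pow' {x : D.F} (m : ℕ) : divOf LL (x ^ m) = m • divOf LL x := Finsupp.ext fun v => by
  rw [Finsupp.smul_apply, divOf_apply, divOf_apply, ord_pow, nsmul_eq_mul]

/-- The class of a function with divisible divisor. -/
def clsOf (x : D.F) (h : DivN D n x) : Pic0 LL D.F := Pic0.mk ⟨divDiv D n x, divDiv_mem h⟩

variable (hK : KummerTheory D) {φ ψ : Hpar (CongruenceSubgroup.Gamma1 M) (ZMod n)}

include hK in
theorem clsOf_eq {x y : D.F} (hx : RepN D n x φ) (hy : RepN D n y φ) :
    clsOf x hx.1 = clsOf y hy.1 := by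
  obtain ⟨w, hw, rfl⟩ := hx.transfer hK hy
  rw [clsOf, clsOf, FlatModel.pic0_mk_eq_iff, isPrincipal_iff]
  refine ⟨w, hw, sub_eq_iff_eq_add.2 (divDiv_unique hx.1 ?_)⟩
  rw [smul_add, nsmul_divDiv hy.1, divOf_mul' hy.ne_zero (pow_ne_zero _ hw), divOf_pow', add_comm]

/-- The class in the divisor classes. -/
def clsFun (φ : Hpar (CongruenceSubgroup.Gamma1 M) (ZMod n)) : Pic0 LL D.F :=
  clsOf _ (exists_repN_of hK φ).choose_spec.1

theorem clsFun_eq {x : D.F} (hx : RepN D n x φ) : clsFun hK φ = clsOf x hx.1 :=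
  clsOf_eq hK (exists_repN_of hK φ).choose_spec hx

/-- Classes of torsion functions. -/
def clsHom : Hpar (CongruenceSubgroup.Gamma1 M) (ZMod n) →+ Pic0 LL D.F :=
  AddMonoidHom.mk' (clsFun hK) fun φ ψ => by
    obtain ⟨x, hx⟩ := exists_repN_of hK φ
    obtain ⟨y, hy⟩ := exists_repN_of hK ψ
    rw [clsFun_eq hK (hx.mul hK hy), clsFun_eq hK hx, clsFun_eq hK hy, clsOf, clsOf, clsOf,
      ← Pic0.mk_add]
    refine congrArg Pic0.mk (Subtype.ext (divDiv_unique (hx.mul hK hy).1 ?_))
    rw [AddSubgroup.coe_add, smul_add, nsmul_divDiv hx.1, nsmul_divDiv hy.1,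
      divOf_mul' hx.ne_zero hy.ne_zero]

theorem clsHom_injective : Function.Injective (clsHom hK (n := n)) := by
  rw [injective_iff_map_eq_zero]
  intro φ hφ
  obtain ⟨x, hx⟩ := exists_repN_of hK φ
  change clsFun hK φ = 0 at hφ
  rw [clsFun_eq hK hx, clsOf, show (0 : Pic0 LL D.F) = Pic0.mk 0 from rfl,
    FlatModel.pic0_mk_eq_iff, AddSubgroup.coe_zero, sub_zero, isPrincipal_iff] at hφ
  obtain ⟨f, hf, hdiv⟩ := hφ
  change divDiv D n x = divOf LL f at hdiv
  have hd : divOf LL x = divOf LL (f ^ n) := by rw [divOf_pow', ← hdiv, nsmul_divDiv hx.1]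
  have hfn : f ^ n ≠ 0 := pow_ne_zero _ hf
  obtain ⟨c, hc⟩ := eq_algebraMap_of_forall_ord_nonneg (K := LL) (f := x / f ^ n) fun v => by
    have h1 := congrArg (fun E : Divisor LL D.F => E v) hd
    simp only [divOf_apply] at h1
    rw [div_eq_mul_inv, v.ord_mul hx.ne_zero (inv_ne_zero hfn), v.ord_inv, h1, add_neg_cancel]
  have hxc : x = algebraMap LL D.F c * f ^ n := by rw [← hc, div_mul_cancel₀ _ hfn]
  have hc0 : c ≠ 0 := fun h0 => hx.ne_zero (by rw [hxc, h0, map_zero, zero_mul])
  exact hx.unique (hxc ▸ (repN_pow hK hf).smul_const hK hc0)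

theorem clsHom_gal (σ : GG) (φ : Hpar (CongruenceSubgroup.Gamma1 M) (ZMod n)) :
    clsHom hK (actHom hK σ φ) = galRho D σ • clsHom hK φ := by
  obtain ⟨x, hx⟩ := exists_repN_of hK φ
  show clsFun hK (actFun hK σ φ) = galRho D σ • clsFun hK φ
  rw [clsFun_eq hK (actFun_spec hK σ hx), clsFun_eq hK hx, clsOf, clsOf,
    SemilinearAut.pic0_smul_mk]
  refine congrArg Pic0.mk (Subtype.ext (divDiv_unique (actFun_spec hK σ hx).1 ?_))
  rw [SemilinearAut.coe_degZeroSMulHom, ← galRho_smul, FlatModel.divOf_smul, ← nsmul_divDiv hx.1]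
  exact smul_comm _ _ _

/-- The torsion with its Galois action. -/
@[reducible]
def hparAction : DistribMulAction GG (Hpar (CongruenceSubgroup.Gamma1 M) (ZMod n)) where
  smul σ φ := actHom hK σ φ
  one_smul φ := DFunLike.congr_fun (map_one (actHom hK)) φ
  mul_smul σ τ φ := DFunLike.congr_fun (map_mul (actHom hK) σ τ) φ
  smul_zero σ := map_zero (actHom hK σ)
  smul_add σ φ ψ := map_add (actHom hK σ) φ ψ

end FLTAgent.Lowering.P3
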