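import Fermat.Agent.FlatModel.ModularCoords

/-!
# Integral coordinates for models made of Laurent series

A field of series over the algebraic numbers stable under Galois, reduced coefficientwise to a
field generated by reductions of integral series, has equivariant integral coordinates.
-/

set_option autoImplicit false
set_option linter.style.haveILetI false
set_option linter.unusedSectionVars false
set_option synthInstance.maxHeartbeats 400000
set_option maxHeartbeats 1000000

noncomputable section

open IsLocalRing Polynomial IntermediateField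

namespace FLTAgent.Lowering.P3

open AlgebraicCurve FLTAgent.Curves FLTAgent.Specialization ModularCurve FLTAgent.FlatModel

local notation "QQb" => AlgebraicClosure ℚ
local notation "GG" => (AlgebraicClosure ℚ ≃ₐ[ℚ] AlgebraicClosure ℚ)

theorem finrank_adjoin_pos {K F : Type*} [Field K] [Field F] [Algebra K F] [IsFunctionField K F]
    {x : F} (hx : Transcendental K x) : 0 < Module.finrank K⟮x⟯ F :=
  haveI := finiteDimensional_adjoin (K := K) hx
  Module.finrank_pos

variable {A : ValuationSubring QQb} [IsAlgClosed (ResidueField A)]
  {E : IntermediateField QQb (LaurentSeries QQb)}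
  {Eb : IntermediateField (ResidueField A) (LaurentSeries (ResidueField A))}
  [IsFunctionField QQb E] [IsFunctionField (ResidueField A) Eb]

/-- **Equivariant integral coordinates.** -/
theorem exists_eqCoords_series (M : Model (residue A) E Eb)
    (hres : ∀ (f : E) (g : Eb), M.Res f g ↔
      (laurentReduction (residue A) E).Res f (g : LaurentSeries (ResidueField A)))
    (hx : (M.x : LaurentSeries QQb) = jqModC QQb)
    (hxb : (M.xb : LaurentSeries (ResidueField A)) = jqModC (ResidueField A))
    (S : Set (LaurentSeries (ResidueField A))) (hgen : Eb = IntermediateField.adjoin (ResidueField A) S)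
    (hS : ∀ s ∈ S, ∃ y : LaurentSeries A, coeffMap A.subtype y ∈ E ∧ coeffMap (residue A) y = s)
    (ρ : GG →* SemilinearAut QQb E)
    (hρ : ∀ (σ : GG) (f : E),
      ((ρ σ • f : E) : LaurentSeries QQb) = coeffMap (σ : QQb →+* QQb) (f : LaurentSeries QQb))
    (m : ℕ) : Nonempty (EqCoords M ρ m) := by
  classical
  set k := ResidueField A
  set R := laurentReduction (residue A) E
  let x : E := M.x
  have hjmem : jqModC k ∈ Eb := hxb ▸ M.xb.2
  have hle : k⟮jqModC k⟯ ≤ Eb := IntermediateField.adjoin_simple_le_iff.2 hjmem
  have hxbt : Transcendental k (jqModC k) := transcendental_jq k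
  have hfin : Module.finrank k⟮jqModC k⟯ (IntermediateField.extendScalars hle) =
      Module.finrank k⟮M.xb⟯ Eb := by
    rw [show M.xb = (⟨jqModC k, hjmem⟩ : Eb) from Subtype.ext hxb]
    exact (finrank_adjoin_coe (⟨jqModC k, hjmem⟩ : Eb) hle).symm
  have hpos := finrank_adjoin_pos (K := k) M.transcendental
  rw [← hfin] at hpos
  haveI : FiniteDimensional k⟮jqModC k⟯ (IntermediateField.extendScalars hle) :=
    Module.finite_of_finrank_pos hpos
  have hxL : Transcendental QQb x :=
    transcendental_coe (by rw [show (x : LaurentSeries QQb) = jqModC QQb from hx]; exact transcendental_jq QQb)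
  have hE : IntermediateField.extendScalars hle = IntermediateField.adjoin k⟮jqModC k⟯ S := by
    apply IntermediateField.restrictScalars_injective k
    rw [IntermediateField.extendScalars_restrictScalars,
      IntermediateField.restrictScalars_adjoin, IntermediateField.adjoin_union,
      IntermediateField.adjoin_self, ← hgen]
    exact (sup_eq_right.2 hle).symm
  set T : Subring E := ((coeffMap A.subtype).range).comap E.val.toRingHom
  obtain ⟨u, w, huT, huw, hw⟩ := exists_lift_basis_mem R (IntermediateField.extendScalars hle)
    (T := T.toSubmonoid) (S := S)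
    (fun s hs => by
      obtain ⟨y, hy, rfl⟩ := hS s hs
      exact ⟨⟨_, hy⟩, ⟨y, rfl⟩, laurentReduction_res hy⟩) hE
  have hresj : R.Res x (jqModC k) := hxb ▸ (hres _ _).1 M.x_res
  haveI := finiteDimensional_adjoin (K := QQb) hxL
  have hu : LinearIndependent QQb⟮x⟯ u :=
    Reduction.linearIndependent_of_res (Reduction.lineReduction_compat hresj hxbt residue_surjective)
      huw (Reduction.lineReduction_total hresj hxbt residue_surjective) hw
  haveI : Nonempty (Fin (Module.finrank k⟮jqModC k⟯ (IntermediateField.extendScalars hle))) :=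
    ⟨⟨0, hpos⟩⟩
  have hspan := hu.span_eq_top_of_card_eq_finrank (by
    rw [Fintype.card_fin, hfin]; exact M.finrank_eq.symm)
  obtain ⟨Q, n₀, hQ0, hQ⟩ := Reduction.exists_common_denominator hspan hxL (polesSpace M m)
  obtain ⟨P, hP, S', hS'⟩ := exists_primitive_multiple hQ0
  -- the multiplier
  set yd : LaurentSeries A := aeval (jqModC A) P
  set d : E := aeval x (P.map (Int.castRingHom QQb))
  have hd : coeffMap A.subtype yd = (d : LaurentSeries QQb) := by
    show coeffMap A.subtype (aeval (jqModC A) P) = E.val.toRingHom (aeval x (P.map _))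
    rw [aeval_def, aeval_def, eval₂_map, hom_eval₂, hom_eval₂, coeffMap_jqModC]
    exact congrArg₂ (fun f z => eval₂ f z P) (RingHom.ext_int _ _) hx.symm
  have hdb : coeffMap (residue A) yd ≠ 0 := fun h0 => hxbt ⟨_, map_ne_zero_of_isPrimitive hP, by
    rw [← h0]
    show _ = coeffMap (residue A) (aeval (jqModC A) P)
    rw [aeval_def, aeval_def, eval₂_map, hom_eval₂, coeffMap_jqModC]
    exact congrArg₂ (fun f z => eval₂ f z P) (RingHom.ext_int _ _) rfl⟩
  let coord : E →ₗ[QQb] (ℤ → QQb) :=
    { toFun := fun f n => ((d : LaurentSeries QQb) * (f : LaurentSeries QQb)).coeff n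
      map_add' := fun f g => funext fun n => by simp [mul_add]
      map_smul' := fun a f => funext fun n => by
        rw [RingHom.id_apply, Pi.smul_apply, smul_eq_mul, Algebra.smul_def, MulMemClass.coe_mul,
          mul_left_comm]
        exact coeff_algebraMap_mul a _ n }
  let coordb : Eb →ₗ[k] (ℤ → k) :=
    { toFun := fun g n => (coeffMap (residue A) yd * (g : LaurentSeries k)).coeff n
      map_add' := fun f g => funext fun n => by simp [mul_add]
      map_smul' := fun a f => funext fun n => by
        rw [RingHom.id_apply, Pi.smul_apply, smul_eq_mul, Algebra.smul_def, MulMemClass.coe_mul,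
          mul_left_comm]
        exact coeff_algebraMap_mul a _ n }
  have hxi : ∃ y, coeffMap A.subtype y = (x : LaurentSeries QQb) :=
    ⟨jqModC A, by rw [coeffMap_jqModC]; exact hx.symm⟩
  refine ⟨⟨⟨coord, coordb, fun g₁ g₂ h => ?_, fun f g hf hfg n => ?_⟩, fun σ f n => ?_⟩⟩
  · exact Subtype.ext (mul_left_cancel₀ hdb (HahnSeries.ext h))
  · have hdS : d = aeval x (Q * S') := by rw [← hS']
    have hyd : coeffMap A.subtype yd ∈ E := hd ▸ d.2
    have hres' : R.Res (aeval x (Q * S') * f)
        (coeffMap (residue A) yd * (g : LaurentSeries k)) := by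
      refine Reduction.Res.mul ?_ ((hres f g).1 hfg)
      have h := laurentReduction_res (π := residue A) hyd
      rwa [show (⟨_, hyd⟩ : E) = aeval x (Q * S') from hdS ▸ Subtype.ext hd] at h
    obtain ⟨Y, hY, hYb⟩ := exists_series_multiple residue_surjective hresj hxbt huw hw
      hxi (fun i => huT i) (hQ f hf) hres'
    rw [← hdS, MulMemClass.coe_mul] at hY
    exact ⟨Y.coeff n, congrArg (fun s : LaurentSeries QQb => s.coeff n) hY,
      congrArg (fun s : LaurentSeries k => s.coeff n) hYb⟩
  · have hdσ : coeffMap (σ : QQb →+* QQb) (d : LaurentSeries QQb) = d := by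
      rw [← hd, coeffMap_coeffMap]
      show coeffMap _ (aeval (jqModC A) P) = coeffMap _ (aeval (jqModC A) P)
      rw [aeval_def, hom_eval₂, hom_eval₂, coeffMap_jqModC, coeffMap_jqModC]
      exact congrArg₂ (fun f z => eval₂ f z P) (RingHom.ext_int _ _) rfl
    show ((d : LaurentSeries QQb) * _).coeff n = σ (((d : LaurentSeries QQb) * _).coeff n)
    rw [hρ]
    conv_lhs => rw [← hdσ, ← map_mul]
    rfl

end FLTAgent.Lowering.P3
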