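import Fermat.Agent.DeligneSerre.Smooth.GoodReduction

/-!
# The smooth model of the field of `Γ₁(n)` at a place prime to the level

The field in characteristic prime to `n` is generated by the reductions of the integral series of
the field of `Γ₁(n)`. The substitution `q ↦ q^n` identifies both fields with the parts of the
fields of level `±Γ(n)` fixed by `±Γ₁(n)`, so smoothness descends from the full level.
-/

set_option autoImplicit false
set_option linter.unusedSectionVars false
set_option linter.style.haveILetI false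
set_option maxHeartbeats 1600000
set_option synthInstance.maxHeartbeats 400000

noncomputable section

open UpperHalfPlane hiding I I_re I_im
open Filter Topology Complex Function FLTAgent.ModEq FLTAgent.GoodModel ModularCurve
open AlgebraicCurve FLTAgent.Curves IsLocalRing
open FLTAgent.Specialization (IsGauss laurentReduction gaussVal_eq coeffMap_subtype_injective)
open scoped MatrixGroups IntermediateField

namespace FLTAgent.Lowering.P3

open FLTAgent.DeligneSerre

variable {S : Subring ℂ} {M0 N' : ℕ} [NeZero M0] [NeZero N'] [NeZero (M0 * N')]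

theorem card_map_pmGamma1_dvd :
    Nat.card ((pmGamma1 (M0 * N')).map (QuotientGroup.mk' (pmGamma (M0 * N')))) ∣ M0 * N' := by
  set t := QuotientGroup.mk' (pmGamma (M0 * N')) ModularGroup.T with ht
  have h : (pmGamma1 (M0 * N')).map (QuotientGroup.mk' (pmGamma (M0 * N'))) ≤
      Subgroup.zpowers t := by
    refine Subgroup.map_le_iff_le_comap.2 (pmGamma1_le_of_T (fun g hg => ?_)
      (Subgroup.mem_zpowers t))
    rw [Subgroup.mem_comap, show QuotientGroup.mk' (pmGamma (M0 * N')) g = 1 from
      (QuotientGroup.eq_one_iff g).2 hg]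
    exact one_mem _
  refine (Subgroup.card_dvd_of_le h).trans ?_
  rw [Nat.card_zpowers]
  refine orderOf_dvd_of_pow_eq_one ?_
  rw [ht, ← map_pow]
  refine (QuotientGroup.eq_one_iff _).2 (Gamma_le_pmGamma _ ?_)
  rw [← zpow_natCast, CongruenceSubgroup.Gamma_mem]
  simp [ModularGroup.coe_T_zpow, -zpow_natCast]
  rw [← Nat.cast_mul, ZMod.natCast_self]

/-- Degrees of a field identified with the one fixed by `±Γ₁(n)`. -/
theorem finrank_of_range (P : Frame S M0 N') {K : Type} [Field K] (φ : S →+* K) (hφ : Surjective φ)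
    {F : IntermediateField K (LaurentSeries K)} (ι : F →ₐ[K] P.fld φ)
    (hι : ι.fieldRange = P.fixedFld φ hφ (pmGamma1 (M0 * N'))) (x : F) (hx : ι x = P.jj φ hφ) :
    letI := ι.toRingHom.toAlgebra
    Module.finrank K⟮x⟯ F = Nat.card (SL(2, ℤ) ⧸ pmGamma1 (M0 * N')) ∧
      Module.finrank F (P.fld φ) =
        Nat.card ((pmGamma1 (M0 * N')).map (QuotientGroup.mk' (pmGamma (M0 * N')))) ∧
      FiniteDimensional F (P.fld φ) := by
  classical
  letI := ι.toRingHom.toAlgebra
  haveI : IsScalarTower K F (P.fld φ) := IsScalarTower.of_algebraMap_eq fun a => (ι.commutes a).symm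
  haveI : Fintype (SL(2, ℤ) ⧸ pmGamma (M0 * N')) := Subgroup.fintypeQuotientOfFiniteIndex
  set H := pmGamma1 (M0 * N') with hH
  set G := H.map (QuotientGroup.mk' (pmGamma (M0 * N'))) with hG
  let e : F ≃ₐ[K] P.fixedFld φ hφ H :=
    (AlgEquiv.ofInjectiveField ι).trans (IntermediateField.equivOfEq hι)
  have hcard : Nat.card (P.autOf φ hφ H) = Nat.card G :=
    (Nat.card_congr (Subgroup.equivMapOfInjective _ _ (P.actQ_injective φ hφ)).toEquiv).symm
  haveI : Finite (P.autOf φ hφ H) :=
    Nat.finite_of_card_ne_zero (by rw [hcard]; exact Nat.card_pos.ne')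
  haveI : Fintype (P.autOf φ hφ H) := Fintype.ofFinite _
  have hEF : Module.finrank F (P.fld φ) = Nat.card G := by
    rw [Algebra.finrank_eq_of_equiv_equiv e.toRingEquiv (RingEquiv.refl (P.fld φ))
      (RingHom.ext fun _ => rfl), ← hcard, Nat.card_eq_fintype_card]
    exact FixedPoints.finrank_eq_card (P.autOf φ hφ H) (P.fld φ)
  refine ⟨?_, hEF, Module.finite_of_finrank_pos (by rw [hEF]; exact Nat.card_pos)⟩
  have h2 := Kronecker.finrank_adjoin_algebraMap (K := K) (F' := P.fld φ) x
  rw [show algebraMap F (P.fld φ) x = P.jj φ hφ from hx, P.finrank_jj φ hφ, hEF] at h2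
  have h3 := Subgroup.card_mul_index G
  rw [Subgroup.index_map_eq _ (QuotientGroup.mk'_surjective _)
    (by rw [QuotientGroup.ker_mk']; exact pmGamma_le_pmGamma1 _), mul_comm] at h3
  exact Nat.eq_of_mul_eq_mul_right Nat.card_pos (h2.symm.trans h3.symm)

/-- A fixed element is a quotient of functions fixed by `T`. -/
theorem exists_T_frac (P : Frame S M0 N') {K : Type} [Field K] (φ : S →+* K) (hφ : Surjective φ)
    {z : P.fld φ} (hz : z ∈ P.fixedFld φ hφ (pmGamma1 (M0 * N'))) :
    ∃ a b : modRing S (M0 * N'), transl ModularGroup.T a = a ∧ transl ModularGroup.T b = b ∧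
      P.redF φ hφ b ≠ 0 ∧ z = P.redF φ hφ a / P.redF φ hφ b := by
  classical
  obtain ⟨a, b, hb, hzab⟩ := P.exists_frac φ hφ z
  obtain ⟨m, hm⟩ : ∃ m, M0 * N' = m + 1 :=
    ⟨M0 * N' - 1, by have := NeZero.ne (M0 * N'); omega⟩
  obtain ⟨b', hb'⟩ : ∃ b' : modRing S (M0 * N'),
      b' = ∏ k ∈ Finset.range (M0 * N'), transl (ModularGroup.T ^ k) b := ⟨_, rfl⟩
  obtain ⟨a', ha'⟩ : ∃ a' : modRing S (M0 * N'),
      a' = a * ∏ k ∈ Finset.range m, transl (ModularGroup.T ^ (k + 1)) b := ⟨_, rfl⟩
  have hTn : ∀ f : modRing S (M0 * N'), transl (ModularGroup.T ^ (M0 * N')) f = f := fun f => by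
    refine transl_of_mem_Gamma ?_ f
    rw [← zpow_natCast, CongruenceSubgroup.Gamma_mem]
    simp [ModularGroup.coe_T_zpow, -zpow_natCast]
    rw [← Nat.cast_mul, ZMod.natCast_self]
  have hTb : transl ModularGroup.T b' = b' := by
    rw [hb', map_prod]
    simp only [transl_transl, ← pow_succ]
    rw [show Finset.range (M0 * N') = Finset.range (m + 1) by rw [hm],
      Finset.prod_range_succ' (fun k => transl (ModularGroup.T ^ k) b),
      Finset.prod_range_succ (fun k => transl (ModularGroup.T ^ (k + 1)) b)]
    congr 1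
    rw [← hm, hTn, pow_zero, transl_one]
  have hbne : P.redF φ hφ b' ≠ 0 := by
    rw [hb', map_prod]
    exact Finset.prod_ne_zero_iff.2 fun k _ => P.redF_transl_ne φ hφ _ hb
  have hab : P.redF φ hφ a' = z * P.redF φ hφ b' := by
    rw [ha', hb', map_mul, map_prod, map_prod,
      show Finset.range (M0 * N') = Finset.range (m + 1) by rw [hm],
      Finset.prod_range_succ' (fun k => P.redF φ hφ (transl (ModularGroup.T ^ k) b)), pow_zero,
      transl_one, hzab]
    field_simp
  have hz' : P.psi φ hφ ModularGroup.T z = z := by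
    have := (P.mem_fixedFld φ hφ).1 hz _ (inv_mem (T_mem_pmGamma1 _))
    rwa [P.act_apply, inv_inv] at this
  have hfix : ∀ k : ℕ, P.redF φ hφ (transl (ModularGroup.T ^ k) a') = P.redF φ hφ a' := fun k => by
    induction k with
    | zero => rw [pow_zero, transl_one]
    | succ k ih =>
      rw [pow_succ, ← transl_transl, ← P.psi_redF, ih, hab, map_mul, hz', P.psi_redF, hTb]
  obtain ⟨u, hu⟩ := P.hv.exists_left_inv
  refine ⟨constM u * ∑ k ∈ Finset.range (M0 * N'), transl (ModularGroup.T ^ k) a', b', ?_, hTb,
    hbne, ?_⟩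
  · rw [map_mul, transl_constM, map_sum]
    simp only [transl_transl, ← pow_succ]
    congr 1
    rw [show Finset.range (M0 * N') = Finset.range (m + 1) by rw [hm],
      Finset.sum_range_succ' (fun k => transl (ModularGroup.T ^ k) a'),
      Finset.sum_range_succ (fun k => transl (ModularGroup.T ^ (k + 1)) a')]
    congr 1
    rw [← hm, hTn, pow_zero, transl_one]
  · rw [map_mul, map_sum, Finset.sum_congr rfl (fun k _ => hfix k), Finset.sum_const,
      Finset.card_range, P.redF_constM, nsmul_eq_mul, ← mul_assoc,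
      ← map_natCast (algebraMap K (P.fld φ)), ← map_mul, ← map_natCast φ, ← map_mul, hu, map_one,
      map_one, one_mul, hab, mul_div_assoc, div_self hbne, mul_one]

local notation "LL" => AlgebraicClosure ℚ

variable {κ : LL →+* ℂ} (D : Field1 (M0 * N') κ) (A : ValuationSubring LL)

/-- The reductions of the integral series of the field. -/
def gensB : Set (LaurentSeries (ResidueField A)) :=
  {s | ∃ y : LaurentSeries A, coeffMap A.subtype y ∈ D.F ∧ coeffMap (residue A) y = s}

/-- The field in characteristic prime to the level. -/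
def fldB : IntermediateField (ResidueField A) (LaurentSeries (ResidueField A)) :=
  IntermediateField.adjoin (ResidueField A) (gensB D A)

theorem jq_mem_gensB : jqModC (ResidueField A) ∈ gensB D A :=
  ⟨jqModC A, by rw [coeffMap_jqModC]; exact D.j_mem, coeffMap_jqModC _⟩

theorem jq_mem_fldB : jqModC (ResidueField A) ∈ fldB D A :=
  IntermediateField.subset_adjoin _ _ (jq_mem_gensB D A)

variable (P' : Frame κ.range M0 N')

/-- The substitution `q ↦ q^n` on the field of `Γ₁(n)`. -/
def iotaD : D.F →ₐ[LL] P'.fld (toLL κ) :=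
  ((substAlg (1 : LLˣ) (M0 * N')).comp D.F.val).codRestrict (P'.fld (toLL κ)).toSubalgebra
    fun w => by
      show substHom 1 (M0 * N') (w : LaurentSeries LL) ∈ P'.fld (toLL κ)
      obtain ⟨w', -, hw'⟩ := exists_fixed_of_mem P' D w.2
      rw [substHom_one, hw']
      exact w'.2

theorem coe_iotaD (w : D.F) :
    (iotaD D P' w : LaurentSeries LL) = qExpand LL (M0 * N') (w : LaurentSeries LL) := by
  show substHom 1 (M0 * N') (w : LaurentSeries LL) = _
  rw [substHom_one]

theorem range_iotaD : (iotaD D P').fieldRange =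
    P'.fixedFld (toLL κ) (toLL_surjective κ) (pmGamma1 (M0 * N')) := by
  ext z
  rw [AlgHom.mem_fieldRange]
  constructor
  · rintro ⟨w, rfl⟩
    refine (P'.fixed_iff_twist _ _ _).2 ?_
    rw [coe_iotaD, twist_fix_qExpand (toLL_root_pow P')]
  · intro hz
    obtain ⟨g, hg, hgz⟩ := exists_mem_of_fixed P' D hz
    exact ⟨⟨g, hg⟩, Subtype.ext (by rw [coe_iotaD]; exact hgz)⟩

theorem iotaD_j : iotaD D P' ⟨jqModC LL, D.j_mem⟩ = P'.jj (toLL κ) (toLL_surjective κ) :=
  Subtype.ext (by rw [coe_iotaD, P'.coe_jj, jAt_one_left]; rfl)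

variable {D A} (P : Frame S M0 N') (h : S ≤ κ.range) (e : S →+* A)
  (he : ∀ s, (e s : LL) = toLL κ (Subring.inclusion h s))
  [IsAlgClosed (ResidueField A)] (hφ : Surjective ((residue A).comp e))

include P' h he hφ in
theorem qExpand_gensB_mem {s : LaurentSeries (ResidueField A)} (hs : s ∈ gensB D A) :
    qExpand (ResidueField A) (M0 * N') s ∈ P.fld ((residue A).comp e) := by
  obtain ⟨y, hy, rfl⟩ := hs
  have hmem : coeffMap A.subtype (qExpand A (M0 * N') y) ∈ P'.fld (toLL κ) := by
    rw [coeffMap_qExpand, ← coe_iotaD D P' ⟨_, hy⟩]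
    exact (iotaD D P' ⟨_, hy⟩).2
  rw [← coeffMap_qExpand]
  exact res_mem_fld P' (toLL κ) (toLL_surjective κ) P _ hφ h e he rfl residue_surjective
    (Specialization.laurentReduction_res hmem)

/-- The substitution `q ↦ q^n` on the field in characteristic prime to the level. -/
def iotaB : fldB D A →ₐ[ResidueField A] P.fld ((residue A).comp e) :=
  ((substAlg (1 : (ResidueField A)ˣ) (M0 * N')).comp (fldB D A).val).codRestrict
    (P.fld ((residue A).comp e)).toSubalgebra fun w => by
      have hle : (fldB D A).map (substAlg (1 : (ResidueField A)ˣ) (M0 * N')) ≤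
          P.fld ((residue A).comp e) := by
        rw [fldB, IntermediateField.adjoin_map, IntermediateField.adjoin_le_iff]
        rintro _ ⟨s, hs, rfl⟩
        show substHom 1 (M0 * N') s ∈ P.fld ((residue A).comp e)
        rw [substHom_one]
        exact qExpand_gensB_mem P' P h e he hφ hs
      exact hle ⟨(w : LaurentSeries (ResidueField A)), w.2, rfl⟩

theorem coe_iotaB (w : fldB D A) :
    (iotaB P' P h e he hφ w : LaurentSeries (ResidueField A)) =
      qExpand (ResidueField A) (M0 * N') (w : LaurentSeries (ResidueField A)) := by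
  show substHom 1 (M0 * N') (w : LaurentSeries (ResidueField A)) = _
  rw [substHom_one]

include P' P h he in
/-- A function fixed by `T` comes from an integral series of the field. -/
theorem exists_series_of_T (D : Field1 (M0 * N') κ) {f : modRing S (M0 * N')}
    (hf : transl ModularGroup.T f = f) :
    ∃ y : LaurentSeries A, coeffMap A.subtype y ∈ D.F ∧
      qExpand (ResidueField A) (M0 * N') (coeffMap (residue A) y) = red ((residue A).comp e) f := by
  set ξV : Aˣ := Units.map (e : S →* A) P.ξ with hξV
  have hprim : IsPrimitiveRoot (Units.map (A.subtype : A →* LL) ξV) (M0 * N') :=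
    isPrimitiveRoot_map (A.subtype.comp e) P.ξ P.hξ P.hv
  have hcomp : A.subtype.comp e = (toLL κ).comp (Subring.inclusion h) := RingHom.ext he
  set G := coeffMap e (serM f) with hG
  have hGz : coeffMap A.subtype G = red (toLL κ) (modIncl h f) := by
    rw [red_modIncl, ← hcomp, hG, red, RingHom.comp_apply, coeffMap_coeffMap]
  have htw : twist ξV G = G := by
    refine coeffMap_subtype_injective A ?_
    have h1 := red_transl_T (A.subtype.comp e) P.ξ P.hξ f
    rw [hf, red, RingHom.comp_apply, ← coeffMap_coeffMap] at h1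
    rw [coeffMap_twist]
    exact h1.symm
  have hroot : Units.map (toLL κ : κ.range →* LL) P'.ξ = Units.map (A.subtype : A →* LL) ξV := by
    refine Units.ext ?_
    show toLL κ (P'.ξ : κ.range) = ((e (P.ξ : S) : A) : LL)
    rw [he]
    exact congrArg (toLL κ) (Subtype.ext (P'.hξ.trans P.hξ.symm))
  have zfix : P'.redF (toLL κ) (toLL_surjective κ) (modIncl h f) ∈
      P'.fixedFld (toLL κ) (toLL_surjective κ) (pmGamma1 (M0 * N')) := by
    refine (P'.fixed_iff_twist _ _ _).2 ?_
    rw [P'.coe_redF, hroot, ← hGz]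
    conv_rhs => rw [← htw]
    exact (coeffMap_twist A.subtype ξV G).symm
  obtain ⟨g, hg, hgz⟩ := exists_mem_of_fixed P' D zfix
  obtain ⟨y, hy⟩ := exists_qExpand_of_twist_integral ξV hprim htw
  refine ⟨y, ?_, ?_⟩
  · have : coeffMap A.subtype y = g := qExpand_injective (M0 * N') (by
      rw [← coeffMap_qExpand, hy, hGz, hgz, P'.coe_redF])
    rwa [this]
  · rw [← coeffMap_qExpand, hy, hG, red, RingHom.comp_apply, coeffMap_coeffMap]

theorem range_iotaB : (iotaB (D := D) P' P h e he hφ).fieldRange =
    P.fixedFld ((residue A).comp e) hφ (pmGamma1 (M0 * N')) := by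
  ext z
  rw [AlgHom.mem_fieldRange]
  constructor
  · rintro ⟨w, rfl⟩
    refine (P.fixed_iff_twist _ _ _).2 ?_
    rw [coe_iotaB, twist_fix_qExpand]
    rw [← map_pow, zeta_pow P.ξ P.hξ, map_one]
  · intro hz
    obtain ⟨a, b, ha, hb, -, hzab⟩ := exists_T_frac P _ hφ hz
    obtain ⟨ya, hya, hra⟩ := exists_series_of_T P' P h e he D ha
    obtain ⟨yb, hyb, hrb⟩ := exists_series_of_T P' P h e he D hb
    refine ⟨⟨coeffMap (residue A) ya / coeffMap (residue A) yb,
      div_mem (IntermediateField.subset_adjoin _ _ ⟨ya, hya, rfl⟩)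
        (IntermediateField.subset_adjoin _ _ ⟨yb, hyb, rfl⟩)⟩, Subtype.ext ?_⟩
    rw [coe_iotaB, map_div₀, hra, hrb, hzab, IntermediateField.coe_div, P.coe_redF, P.coe_redF]

theorem iotaB_j : iotaB (D := D) P' P h e he hφ ⟨jqModC (ResidueField A), jq_mem_fldB D A⟩ =
    P.jj ((residue A).comp e) hφ :=
  Subtype.ext (by rw [coe_iotaB, P.coe_jj, jAt_one_left]; rfl)

include P' P h he hφ in
theorem finrank_fldB : Module.finrank
    (ResidueField A)⟮(⟨jqModC (ResidueField A), jq_mem_fldB D A⟩ : fldB D A)⟯ (fldB D A) =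
      Nat.card (SL(2, ℤ) ⧸ pmGamma1 (M0 * N')) :=
  (finrank_of_range P _ hφ (iotaB (D := D) P' P h e he hφ) (range_iotaB P' P h e he hφ) _
    (iotaB_j P' P h e he hφ)).1

include P' P h he hφ in
theorem isFunctionField_fldB : IsFunctionField (ResidueField A) (fldB D A) :=
  IsFunctionField.mk_of ⟨jqModC (ResidueField A), jq_mem_fldB D A⟩
    (Specialization.transcendental_coe (Specialization.transcendental_jq (ResidueField A)))
    (Module.finite_of_finrank_pos (by
      haveI : Fintype (SL(2, ℤ) ⧸ pmGamma (M0 * N')) := Subgroup.fintypeQuotientOfFiniteIndex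
      haveI : (pmGamma1 (M0 * N')).FiniteIndex :=
        Subgroup.finiteIndex_of_le (pmGamma_le_pmGamma1 _)
      rw [finrank_fldB P' P h e he hφ]
      exact Nat.card_pos))

variable (D A) in
theorem exists_res_gensB :
    ∀ s ∈ gensB D A, ∃ f, (laurentReduction (residue A) D.F).Res f s := by
  rintro _ ⟨y, hy, rfl⟩
  exact ⟨_, Specialization.laurentReduction_res hy⟩

variable (D A) in
theorem res_jqF : (laurentReduction (residue A) D.F).Res ⟨jqModC LL, D.j_mem⟩
    (jqModC (ResidueField A)) := by
  have hy : coeffMap A.subtype (jqModC A) ∈ D.F := by rw [coeffMap_jqModC]; exact D.j_mem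
  have h1 := Specialization.laurentReduction_res (π := residue A) hy
  rw [coeffMap_jqModC (residue A)] at h1
  exact (show (⟨_, hy⟩ : D.F) = ⟨jqModC LL, D.j_mem⟩ from Subtype.ext (coeffMap_jqModC _)) ▸ h1

include P' P h he hφ in
theorem res_mem_fldB {f : D.F} {g : LaurentSeries (ResidueField A)}
    (hfg : (laurentReduction (residue A) D.F).Res f g) : g ∈ fldB D A := by
  haveI := D.isFunctionField
  have hle : (ResidueField A)⟮jqModC (ResidueField A)⟯ ≤ fldB D A :=
    IntermediateField.adjoin_simple_le_iff.2 (jq_mem_fldB D A)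
  haveI : (pmGamma1 (M0 * N')).FiniteIndex :=
    Subgroup.finiteIndex_of_le (pmGamma_le_pmGamma1 _)
  have hdeg : Module.finrank (ResidueField A)⟮jqModC (ResidueField A)⟯
      (IntermediateField.extendScalars hle) = Nat.card (SL(2, ℤ) ⧸ pmGamma1 (M0 * N')) := by
    rw [← Specialization.finrank_adjoin_coe
      (⟨jqModC (ResidueField A), jq_mem_fldB D A⟩ : fldB D A) hle]
    exact finrank_fldB P' P h e he hφ
  haveI : FiniteDimensional (ResidueField A)⟮jqModC (ResidueField A)⟯
      (IntermediateField.extendScalars hle) :=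
    Module.finite_of_finrank_pos (by rw [hdeg]; exact Nat.card_pos)
  refine Specialization.mem_of_res_ambient (laurentReduction (residue A) D.F) residue_surjective
    (x := ⟨jqModC LL, D.j_mem⟩)
    (Specialization.transcendental_coe (Specialization.transcendental_jq LL)) (res_jqF D A)
    (Specialization.transcendental_jq _) hle ?_ (exists_res_gensB D A) rfl hfg
  rw [hdeg]
  exact D.finrank_j

/-- The model of the field of `Γ₁(n)`. -/
def flatModel : Specialization.Model (residue A) D.F (fldB D A) where
  toReduction := (laurentReduction (residue A) D.F).codRestrict (fldB D A)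
    fun _ _ hfg => res_mem_fldB P' P h e he hφ hfg
  surj := residue_surjective
  x := ⟨jqModC LL, D.j_mem⟩
  xb := ⟨jqModC (ResidueField A), jq_mem_fldB D A⟩
  x_res := Specialization.Reduction.codRestrict_res.2 (res_jqF D A)
  transcendental := Specialization.transcendental_coe (Specialization.transcendental_jq _)
  finrank_eq := D.finrank_j.trans (finrank_fldB P' P h e he hφ).symm
  gen := Specialization.gen_codRestrict _ _ _ (exists_res_gensB D A) rfl

theorem flatModel_res {f : D.F} {g : fldB D A} :
    (flatModel P' P h e he hφ).Res f g ↔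
      (laurentReduction (residue A) D.F).Res f (g : LaurentSeries (ResidueField A)) :=
  Specialization.Reduction.codRestrict_res
    (h := fun _ _ hfg => res_mem_fldB P' P h e he hφ hfg)

/-- The model is smooth. -/
theorem flatModel_smooth [IsFunctionField LL D.F]
    [IsFunctionField (ResidueField A) (fldB D A)] :
    (flatModel (D := D) P' P h e he hφ).Smooth := by
  haveI := P'.isFunctionField (toLL κ) (toLL_surjective κ)
  haveI := P.isFunctionField ((residue A).comp e) hφ
  set ιb := iotaB (D := D) P' P h e he hφ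
  obtain ⟨-, hd, hfin⟩ := finrank_of_range P' (toLL κ) (toLL_surjective κ) (iotaD D P')
    (range_iotaD D P') _ (iotaD_j D P')
  obtain ⟨-, hdb, hfinb⟩ := finrank_of_range P _ hφ ιb (range_iotaB P' P h e he hφ) _
    (iotaB_j P' P h e he hφ)
  letI : Algebra D.F (P'.fld (toLL κ)) := (iotaD D P').toRingHom.toAlgebra
  letI : Algebra (fldB D A) (P.fld ((residue A).comp e)) := ιb.toRingHom.toAlgebra
  haveI : IsScalarTower LL D.F (P'.fld (toLL κ)) :=
    IsScalarTower.of_algebraMap_eq fun a => ((iotaD D P').commutes a).symm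
  haveI : IsScalarTower (ResidueField A) (fldB D A) (P.fld ((residue A).comp e)) :=
    IsScalarTower.of_algebraMap_eq fun a => (ιb.commutes a).symm
  haveI := hfin
  haveI := hfinb
  set M' := frameModel (π := residue A) P' (toLL κ) (toLL_surjective κ) P _ hφ h e he rfl
    residue_surjective with hM'
  have hT : Specialization.Tower (flatModel (D := D) P' P h e he hφ) M' := by
    refine ⟨fun f g hfg => ?_, (iotaD_j D P').symm, hd.trans hdb.symm⟩
    rw [hM', frameModel_res]
    obtain ⟨a, b, hab, hg⟩ := exists_gauss_of_res ((flatModel_res P' P h e he hφ).1 hfg)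
    have hgauss : IsGauss (residue A)
        ((algebraMap D.F (P'.fld (toLL κ)) f : P'.fld (toLL κ)) : LaurentSeries LL)
        (qExpand A (M0 * N') a) (qExpand A (M0 * N') b) := by
      refine ⟨?_, ?_⟩
      · rw [coeffMap_qExpand]
        exact (map_ne_zero_iff _ (qExpand_injective (M0 * N'))).2 hab.1
      · rw [show (algebraMap D.F (P'.fld (toLL κ)) f) = iotaD D P' f from rfl, coe_iotaD,
          coeffMap_qExpand, coeffMap_qExpand, ← map_mul, hab.2]
    have h1 := res_of_gauss hgauss
    rw [coeffMap_qExpand, coeffMap_qExpand, ← map_div₀, ← hg] at h1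
    rw [show algebraMap (fldB D A) (P.fld ((residue A).comp e)) g = ιb g from rfl, coe_iotaB]
    exact h1
  refine hT.smooth_of_invertible (frameModel_smooth (π := residue A) P' (toLL κ)
    (toLL_surjective κ) P _ hφ h e he rfl residue_surjective) ?_
  rw [hd]
  intro h0
  obtain ⟨c, hc⟩ := card_map_pmGamma1_dvd (M0 := M0) (N' := N')
  refine (P.hv.map ((residue A).comp e)).ne_zero ?_
  rw [map_natCast, hc, Nat.cast_mul, h0, zero_mul]

end FLTAgent.Lowering.P3
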