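import Fermat.Agent.Lowering.P3.Statements
import Fermat.Agent.Lowering.P3.Flat.Classes
import Fermat.Agent.Lowering.P3.Flat.Coords
import Fermat.Agent.Lowering.P3.Flat.Model
import Fermat.Agent.FlatLocal.OfHopf

/-!
# The torsion of the auxiliary levels is finite flat away from the level
-/

set_option autoImplicit false
set_option linter.unusedSectionVars false
set_option linter.style.haveILetI false
set_option maxHeartbeats 1600000
set_option synthInstance.maxHeartbeats 400000

noncomputable section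

open IsLocalRing

namespace FLTAgent.Lowering.P3

open FLTAgent.DeligneSerre AlgebraicCurve FLTAgent.Curves FLTAgent.Specialization ModularCurve
open FLTAgent.PeriodHecke (Hpar)

local notation "LL" => AlgebraicClosure ℚ
local notation "GG" => (AlgebraicClosure ℚ ≃ₐ[ℚ] AlgebraicClosure ℚ)

theorem flatI_actHom {M0 N' : ℕ} [NeZero M0] [NeZero N'] [NeZero (M0 * N')]
    (hM : M0 = 2 ∨ M0 = 3) (hn : 3 ≤ M0 * N') {κ : LL →+* ℂ} (D : Field1 (M0 * N') κ)
    (hK : KummerTheory D) {p : ℕ} [Fact p.Prime] (hp : ¬ p ∣ M0 * N')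
    {P : ValuationSubring LL} (hP : P.LiesOverPrime p) (m : ℕ) [NeZero m] :
    FlatLocal.FlatI P fun σ : FlatLocal.Dec P => actHom (n := m) hK (σ : GG) := by
  haveI : IsAlgClosed (ResidueField P) := FrobTrace.isAlgClosed_residueField P
  haveI := D.isFunctionField
  obtain ⟨S, h, P', Pf, e, ξ, he, -⟩ := exists_frames (κ := κ) hM hn hp hP
  have he' : ∀ s : S, (e.toRingHom s : LL) = toLL κ (Subring.inclusion h s) := he
  have hφ : Function.Surjective ((residue P).comp e.toRingHom) :=
    residue_surjective.comp e.surjective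
  haveI := isFunctionField_fldB (D := D) P' Pf h e.toRingHom he' hφ
  set Mo := flatModel (D := D) P' Pf h e.toRingHom he' hφ with hMo
  have hsm : Mo.Smooth := flatModel_smooth P' Pf h e.toRingHom he' hφ
  have hx : ∀ σ, galRho D σ • Mo.x = Mo.x := fun σ => Subtype.ext (by
    rw [galRho_smul, coe_galF]
    show coeffMap _ (jqModC LL) = jqModC LL
    rw [coeffMap_jqModC])
  have hcoords : ∀ j, Nonempty (FlatModel.EqCoords Mo (galRho D) j) := fun j =>
    exists_eqCoords_series Mo (fun _ _ => flatModel_res P' Pf h e.toRingHom he' hφ) rfl rfl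
      (gensB D P) rfl (fun _ hs => hs) (galRho D) (fun σ f => by rw [galRho_smul, coe_galF]) j
  haveI : Finite (Additive (CongruenceSubgroup.Gamma1 (M0 * N')) →+ ZMod m) :=
    Tors.finite_hom (ZMod m)
  letI := hparAction (n := m) hK
  obtain ⟨O⟩ := FlatModel.exists_hopfOrder_pic0 (ℓ := p) hP hsm (isArith_galRho D) hx hcoords
    (clsHom (n := m) hK) (clsHom_injective hK) (clsHom_gal hK)
  exact FlatLocal.FlatI.of_hopfOrder hP O fun σ _ x => rfl

/-- **P3 (b): the torsion of a level prime to `p` is finite flat at `p`.** -/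
theorem targetFlat : TargetFlat := by
  intro p _ M _ κ D hA hpM k P hP
  obtain ⟨M0, hM, hdvd⟩ : ∃ M0, (M0 = 2 ∨ M0 = 3) ∧ M0 * M0 ∣ M := by
    rcases hA with h | h
    · exact ⟨2, Or.inl rfl, by simpa using h⟩
    · exact ⟨3, Or.inr rfl, by simpa using h⟩
  obtain ⟨N', rfl⟩ : M0 ∣ M := (dvd_mul_right M0 M0).trans hdvd
  haveI : NeZero M0 := ⟨by rcases hM with rfl | rfl <;> omega⟩
  haveI : NeZero N' := ⟨fun h => NeZero.ne (M0 * N') (by rw [h, mul_zero])⟩
  have hn : 3 ≤ M0 * N' := by
    have := Nat.le_of_dvd (Nat.pos_of_ne_zero (NeZero.ne (M0 * N'))) hdvd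
    rcases hM with rfl | rfl <;> omega
  exact flatI_actHom hM hn D _ hpM hP (p ^ k)

end FLTAgent.Lowering.P3
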